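/-
S36, modular part, block S0 (sub-architect helper156).  ABSTRACT FILE (task S36-MOD-G0).

The Gauss valuation attached to an *integral embedding* `φ : F → K((t))` of a field `F`:
`A` is a discrete valuation subring of `K`, and every `φ f` is a quotient of series with
coefficients in `A`.  We get a valuation subring `φ.val` of `F` and a residue map
`φ.res : φ.val →+* k((t))`.
-/
import Fermat.Agent.S18.Vert.GaussRes
import Fermat.Agent.S18.Defs
import Fermat.Agent.S24.B.Laurent

set_option autoImplicit false
set_option linter.unusedSectionVars false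

noncomputable section

namespace Fermat.Agent.S36.Mod

open ModularCurve Fermat.Agent.S18 Fermat.Agent.S18.Vert

variable {K : Type*} [Field K] (A : ValuationSubring K)

/-- The subfield of `K((t))` generated by the series with coefficients in `A`. -/
def quotField : IntermediateField K (LaurentSeries K) :=
  IntermediateField.adjoin K (Set.range (inc A))

theorem inc_mem_quotField (P : LaurentSeries A) : inc A P ∈ quotField A :=
  IntermediateField.subset_adjoin K _ ⟨P, rfl⟩

/-- auxiliary form of `isQuot_quotField`. -/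
theorem exists_quot_of_mem_quotField {f : LaurentSeries K} (hf : f ∈ quotField A) :
    ∃ P Q : LaurentSeries A, Q ≠ 0 ∧ f * inc A Q = inc A P := by
  induction hf using IntermediateField.adjoin_induction with
  | mem y hy =>
    obtain ⟨P, rfl⟩ := hy
    exact ⟨P, 1, one_ne_zero, by rw [map_one, mul_one]⟩
  | algebraMap c =>
    rcases A.mem_or_inv_mem c with hc | hc
    · exact ⟨HahnSeries.C ⟨c, hc⟩, 1, one_ne_zero, by rw [map_one, mul_one, inc_C]⟩
    · by_cases hc0 : c = 0
      · exact ⟨0, 1, one_ne_zero, by rw [hc0, map_zero, map_zero, zero_mul]⟩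
      · refine ⟨1, HahnSeries.C ⟨c⁻¹, hc⟩, C_ne_zero (fun h => ?_), ?_⟩
        · exact inv_ne_zero hc0 (congrArg Subtype.val h)
        · rw [inc_C, ← map_mul, mul_inv_cancel₀ hc0, map_one, map_one]
  | add y z _ _ hy hz =>
    obtain ⟨P, Q, hQ, h⟩ := hy
    obtain ⟨P', Q', hQ', h'⟩ := hz
    refine ⟨P * Q' + P' * Q, Q * Q', mul_ne_zero hQ hQ', ?_⟩
    rw [map_add, map_mul, map_mul, map_mul, ← h, ← h']
    ring
  | inv y _ hy =>
    obtain ⟨P, Q, hQ, h⟩ := hy
    by_cases hy0 : y = 0
    · exact ⟨0, 1, one_ne_zero, by rw [hy0, inv_zero, zero_mul, map_zero]⟩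
    · refine ⟨Q, P, fun hP => ?_, ?_⟩
      · rw [hP, map_zero] at h
        rcases mul_eq_zero.mp h with h1 | h1
        · exact hy0 h1
        · exact hQ ((inc_eq_zero_iff A).mp h1)
      · rw [← h, inv_mul_cancel_left₀ hy0]
  | mul y z _ _ hy hz =>
    obtain ⟨P, Q, hQ, h⟩ := hy
    obtain ⟨P', Q', hQ', h'⟩ := hz
    refine ⟨P * P', Q * Q', mul_ne_zero hQ hQ', ?_⟩
    rw [map_mul, map_mul, ← h, ← h']
    ring

/-- Every element of `quotField A` is a quotient of two integral series. -/
theorem isQuot_quotField : IsQuot A (quotField A) := by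
  intro f
  obtain ⟨P, Q, hQ, h⟩ := exists_quot_of_mem_quotField A f.2
  exact ⟨P, Q, inc_mem_quotField A P, inc_mem_quotField A Q, hQ, h⟩

variable {A} in
/-- a series with coefficients in `A` lies in `quotField A`. -/
theorem mem_quotField_of_coeff_mem {f : LaurentSeries K} (h : ∀ n, f.coeff n ∈ A) :
    f ∈ quotField A := by
  obtain ⟨P, rfl⟩ := (mem_range_inc_iff A f).mpr h
  exact inc_mem_quotField A P

variable {A} in
/-- a ring homomorphism which sends integral series and constants into `quotField A'` sends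
`quotField A` into `quotField A'`. -/
theorem map_mem_quotField {K' : Type*} [Field K'] {A' : ValuationSubring K'}
    (θ : LaurentSeries K →+* LaurentSeries K')
    (h1 : ∀ P : LaurentSeries A, θ (inc A P) ∈ quotField A')
    (h2 : ∀ c : K, θ (algebraMap K (LaurentSeries K) c) ∈ quotField A')
    {f : LaurentSeries K} (hf : f ∈ quotField A) : θ f ∈ quotField A' := by
  induction hf using IntermediateField.adjoin_induction with
  | mem y hy =>
    obtain ⟨P, rfl⟩ := hy
    exact h1 P
  | algebraMap c => exact h2 c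
  | add y z _ _ hy hz => rw [map_add]; exact add_mem hy hz
  | inv y _ hy => rw [map_inv₀]; exact inv_mem hy
  | mul y z _ _ hy hz => rw [map_mul]; exact mul_mem hy hz

variable {A} in
theorem qExpand_mem_quotField (n : ℕ) [NeZero n] {f : LaurentSeries K} (hf : f ∈ quotField A) :
    qExpand K n f ∈ quotField A := by
  refine map_mem_quotField (qExpand K n) (fun P => ?_) (fun c => ?_) hf
  · refine mem_quotField_of_coeff_mem (fun k => ?_)
    by_cases hk : (n : ℤ) ∣ k
    · obtain ⟨m, rfl⟩ := hk
      rw [qExpand_coeff_mul]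
      exact (P.coeff m).2
    · rw [qExpand_coeff_of_not_dvd n _ hk]
      exact A.zero_mem
  · rw [algebraMap_laurentSeries_eq_single, qExpand_single, mul_zero,
      ← algebraMap_laurentSeries_eq_single]
    exact (quotField A).algebraMap_mem c

variable {A} in
theorem twist_mem_quotField (ζ : Kˣ) (hζ : (ζ : K) ∈ A) (hζ' : ((ζ⁻¹ : Kˣ) : K) ∈ A)
    {f : LaurentSeries K} (hf : f ∈ quotField A) : S24.B.twist ζ f ∈ quotField A := by
  have hz : ∀ k : ℤ, ((ζ ^ k : Kˣ) : K) ∈ A := by
    intro k
    rcases Int.eq_nat_or_neg k with ⟨m, rfl | rfl⟩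
    · rw [zpow_natCast, Units.val_pow_eq_pow_val]
      exact pow_mem hζ m
    · rw [zpow_neg, zpow_natCast, ← inv_pow, Units.val_pow_eq_pow_val]
      exact pow_mem hζ' m
  refine map_mem_quotField (S24.B.twist ζ) (fun P => ?_) (fun c => ?_) hf
  · refine mem_quotField_of_coeff_mem (fun k => ?_)
    rw [S24.B.twist_coeff]
    exact A.mul_mem _ _ (hz k) (P.coeff k).2
  · rw [algebraMap_laurentSeries_eq_single, ← HahnSeries.C_apply, S24.B.twist_C,
      HahnSeries.C_apply, ← algebraMap_laurentSeries_eq_single]
    exact (quotField A).algebraMap_mem c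

variable {A} in
theorem coeffMap_mem_quotField {K' : Type*} [Field K'] {A' : ValuationSubring K'} (ι : K →+* K')
    (hι : A'.comap ι = A) {f : LaurentSeries K} (hf : f ∈ quotField A) :
    coeffMap ι f ∈ quotField A' := by
  refine map_mem_quotField (coeffMap ι) (fun P => ?_) (fun c => ?_) hf
  · refine mem_quotField_of_coeff_mem (fun k => ?_)
    rw [coeffMap_coeff]
    have h1 : ((P.coeff k : A) : K) ∈ A'.comap ι := by rw [hι]; exact (P.coeff k).2
    exact h1
  · rw [algebraMap_laurentSeries_eq_single, coeffMap_single,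
      ← algebraMap_laurentSeries_eq_single]
    exact (quotField A').algebraMap_mem (ι c)

variable {A} in
theorem isLocalHom_restrict {K' : Type*} [Field K'] {A' : ValuationSubring K'} (ι : K →+* K')
    (hι : A'.comap ι = A) :
    IsLocalHom (ι.restrict A A' (fun x hx => by rw [← hι] at hx; exact hx)) := by
  refine ⟨fun a ha => ?_⟩
  obtain ⟨b, hb⟩ := isUnit_iff_exists_inv.mp ha
  have hb' : ι (a : K) * (b : K') = 1 := congrArg Subtype.val hb
  have ha0 : (a : K) ≠ 0 := by
    intro h0
    rw [h0, map_zero, zero_mul] at hb'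
    exact zero_ne_one hb'
  have hinv : ι ((a : K)⁻¹) = (b : K') := by
    rw [map_inv₀]
    exact inv_eq_of_mul_eq_one_right hb'
  have hmem : (a : K)⁻¹ ∈ A := by
    have h1 : (a : K)⁻¹ ∈ A'.comap ι := by
      show ι ((a : K)⁻¹) ∈ A'
      rw [hinv]
      exact b.2
    exact hι ▸ h1
  exact isUnit_iff_exists_inv.mpr ⟨⟨(a : K)⁻¹, hmem⟩, Subtype.ext (mul_inv_cancel₀ ha0)⟩

variable {A} in
/-- The map of residue fields induced by `ι : K → K'` when `A = A' ∩ K`. -/
def resFieldMap {K' : Type*} [Field K'] {A' : ValuationSubring K'} (ι : K →+* K')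
    (hι : A'.comap ι = A) : IsLocalRing.ResidueField A →+* IsLocalRing.ResidueField A' :=
  haveI := isLocalHom_restrict ι hι
  IsLocalRing.ResidueField.map (ι.restrict A A' (fun x hx => by rw [← hι] at hx; exact hx))

variable [IsDiscreteValuationRing A]

/-- The Gauss valuation ring of `quotField A`. -/
def bigVal : ValuationSubring (quotField A) := gaussVal A (quotField A) (isQuot_quotField A)

/-- The residue map of `bigVal A`. -/
def bigRes : bigVal A →+* LaurentSeries (IsLocalRing.ResidueField A) :=
  gaussRes (isQuot_quotField A)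

/-- An integral embedding of the field `F` in `K((t))`. -/
structure IntEmb (F : Type*) [Field F] where
  /-- the embedding -/
  toHom : F →+* LaurentSeries K
  mem : ∀ f, toHom f ∈ quotField A

namespace IntEmb

variable {A}
variable {F : Type*} [Field F] (φ : IntEmb A F)

/-- The embedding, with values in `quotField A`. -/
def cod : F →+* quotField A := φ.toHom.codRestrict (quotField A) φ.mem

@[simp] theorem coe_cod (f : F) : ((φ.cod f : quotField A) : LaurentSeries K) = φ.toHom f := rfl

/-- The Gauss valuation ring of `F` attached to the embedding. -/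
def val : ValuationSubring F := (bigVal A).comap φ.cod

theorem mem_val_iff' (f : F) : f ∈ φ.val ↔ φ.cod f ∈ bigVal A := Iff.rfl

/-- The residue map. -/
def res : φ.val →+* LaurentSeries (IsLocalRing.ResidueField A) :=
  (bigRes A).comp (φ.cod.restrict φ.val (bigVal A) fun _ hx => hx)

/-- Composition with a homomorphism of fields. -/
def comp {F' : Type*} [Field F'] (ψ : F' →+* F) : IntEmb A F' where
  toHom := φ.toHom.comp ψ
  mem f := φ.mem (ψ f)

theorem val_comp {F' : Type*} [Field F'] (ψ : F' →+* F) : (φ.comp ψ).val = φ.val.comap ψ := rfl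

theorem res_comp {F' : Type*} [Field F'] (ψ : F' →+* F) (f : (φ.comp ψ).val) :
    (φ.comp ψ).res f = φ.res ⟨ψ f, f.2⟩ := rfl

/-- The substitution `t ↦ t ^ n`. -/
def dil (n : ℕ) [NeZero n] : IntEmb A F where
  toHom := (qExpand K n).comp φ.toHom
  mem f := qExpand_mem_quotField n (φ.mem f)

/-- The substitution `t ↦ ζ t`, `ζ` a unit of `A`. -/
def tw (ζ : Kˣ) (hζ : (ζ : K) ∈ A) (hζ' : ((ζ⁻¹ : Kˣ) : K) ∈ A) : IntEmb A F where
  toHom := (S24.B.twist ζ).comp φ.toHom
  mem f := twist_mem_quotField ζ hζ hζ' (φ.mem f)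

/-- Extension of the coefficients. -/
def bc {K' : Type*} [Field K'] {A' : ValuationSubring K'} [IsDiscreteValuationRing A']
    (ι : K →+* K') (hι : A'.comap ι = A) : IntEmb A' F where
  toHom := (coeffMap ι).comp φ.toHom
  mem f := coeffMap_mem_quotField ι hι (φ.mem f)

end IntEmb

end Fermat.Agent.S36.Mod

end
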