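/-
S36, modular part, block S0 (sub-architect helper156).  ABSTRACT FILE (task S36-MOD-G1, proofs:
helper193).
Basic API of the Gauss valuation ring `φ.val` and of the residue map `φ.res` of an integral
embedding.  Everything follows from `S18/Vert/Gauss.lean`, `S18/Vert/GaussRes.lean` applied to
`F := quotField A`.
-/
import Fermat.Agent.S36.Mod.GaussEmb.Defs

set_option autoImplicit false
set_option linter.unusedSectionVars false

noncomputable section

namespace Fermat.Agent.S36.Mod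

open ModularCurve Fermat.Agent.S18 Fermat.Agent.S18.Vert

variable {K : Type*} [Field K] {A : ValuationSubring K} [IsDiscreteValuationRing A]

namespace IntEmb

variable {F : Type*} [Field F] (φ : IntEmb A F)

theorem mem_val_iff (f : F) :
    f ∈ φ.val ↔ ∃ P Q : LaurentSeries A, red A Q ≠ 0 ∧ φ.toHom f * inc A Q = inc A P := by
  constructor
  · rintro ⟨P, Q, -, -, hQ, h⟩
    exact ⟨P, Q, hQ, h⟩
  · rintro ⟨P, Q, hQ, h⟩
    exact ⟨P, Q, inc_mem_quotField A P, inc_mem_quotField A Q, hQ, h⟩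

theorem res_spec (f : φ.val) {P Q : LaurentSeries A} (hQ : red A Q ≠ 0)
    (h : φ.toHom f * inc A Q = inc A P) : φ.res f * red A Q = red A P :=
  gaussRes_spec (isQuot_quotField A) ⟨φ.cod f, f.2⟩ hQ h

/-- an element with integral expansion is integral -/
theorem mem_val_of_eq_inc {f : F} {P : LaurentSeries A} (h : φ.toHom f = inc A P) : f ∈ φ.val :=
  (φ.mem_val_iff f).2 ⟨P, 1, by rw [map_one]; exact one_ne_zero, by rw [h, map_one, mul_one]⟩

/-- ... and its residue is the reduction of its expansion. -/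
theorem res_of_eq_inc {f : F} {P : LaurentSeries A} (h : φ.toHom f = inc A P) :
    φ.res ⟨f, φ.mem_val_of_eq_inc h⟩ = red A P := by
  have h1 := φ.res_spec ⟨f, φ.mem_val_of_eq_inc h⟩ (P := P) (Q := 1)
    (by rw [map_one]; exact one_ne_zero) (by rw [h, map_one, mul_one])
  rwa [map_one, mul_one] at h1

/-- an element with a presentation by two series of nonzero reduction is a unit. -/
theorem inv_mem_val_of_pres {z : F} {P Q : LaurentSeries A} (hP : red A P ≠ 0)
    (h : φ.toHom z * inc A Q = inc A P) : z⁻¹ ∈ φ.val := by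
  refine (φ.mem_val_iff _).2 ⟨Q, P, hP, ?_⟩
  have hP0 : inc A P ≠ 0 := inc_ne_zero_of_red_ne_zero hP
  have hz : φ.toHom z ≠ 0 := by
    intro h0
    rw [h0, zero_mul] at h
    exact hP0 h.symm
  rw [map_inv₀, ← h, inv_mul_cancel_left₀ hz]

theorem inv_mem_val_iff (f : φ.val) : ((f : F))⁻¹ ∈ φ.val ↔ f = 0 ∨ φ.res f ≠ 0 := by
  constructor
  · intro h
    by_cases hf : f = 0
    · exact Or.inl hf
    right
    intro h0
    have hf' : (f : F) ≠ 0 := fun h1 => hf (Subtype.ext h1)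
    have h1 : f * ⟨(f : F)⁻¹, h⟩ = 1 := Subtype.ext (mul_inv_cancel₀ hf')
    have h2 := congrArg φ.res h1
    rw [map_mul, h0, zero_mul, map_one] at h2
    exact zero_ne_one h2
  · rintro (rfl | h)
    · simp only [ZeroMemClass.coe_zero, inv_zero]
      exact zero_mem _
    · obtain ⟨P, Q, hQ, hPQ⟩ := (φ.mem_val_iff f).1 f.2
      have h1 := φ.res_spec f hQ hPQ
      exact φ.inv_mem_val_of_pres (by rw [← h1]; exact mul_ne_zero h hQ) hPQ

omit [IsDiscreteValuationRing A] in
/-- nonunits of a valuation subring -/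
theorem mem_nonunits_iff_aux {F : Type*} [Field F] (V : ValuationSubring F) (a : F) :
    a ∈ V.nonunits ↔ a = 0 ∨ a⁻¹ ∉ V := by
  rw [ValuationSubring.mem_nonunits_iff, ← ValuationSubring.valuation_le_one_iff]
  by_cases ha : a = 0
  · simp [ha]
  · have h0 : 0 < V.valuation a := zero_lt_iff.2 ((Valuation.ne_zero_iff _).2 ha)
    rw [map_inv₀, inv_le_one₀ h0, not_le]
    simp [ha]

theorem res_eq_zero_iff (f : φ.val) : φ.res f = 0 ↔ (f : F) ∈ φ.val.nonunits := by
  rw [mem_nonunits_iff_aux, inv_mem_val_iff, not_or, not_not]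
  constructor
  · intro h
    by_cases hf : f = 0
    · left; rw [hf]; rfl
    · exact Or.inr ⟨hf, h⟩
  · rintro (h | h)
    · have : f = 0 := Subtype.ext h
      rw [this, map_zero]
    · exact h.2

theorem mem_nonunits_iff (f : F) :
    f ∈ φ.val.nonunits ↔ ∃ P Q : LaurentSeries A, red A Q ≠ 0 ∧ red A P = 0 ∧
      φ.toHom f * inc A Q = inc A P := by
  constructor
  · intro h
    have hf : f ∈ φ.val := ValuationSubring.nonunits_subset h
    obtain ⟨P, Q, hQ, hPQ⟩ := (φ.mem_val_iff f).1 hf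
    have h1 := φ.res_spec ⟨f, hf⟩ hQ hPQ
    rw [(φ.res_eq_zero_iff ⟨f, hf⟩).2 h, zero_mul] at h1
    exact ⟨P, Q, hQ, h1.symm, hPQ⟩
  · rintro ⟨P, Q, hQ, hP, hPQ⟩
    have hf : f ∈ φ.val := (φ.mem_val_iff f).2 ⟨P, Q, hQ, hPQ⟩
    have h1 := φ.res_spec ⟨f, hf⟩ hQ hPQ
    rw [hP] at h1
    exact (φ.res_eq_zero_iff ⟨f, hf⟩).1 ((mul_eq_zero.1 h1).resolve_right hQ)

/-- Normal form of the elements of `F`. -/
theorem exists_normal {π : A} (hπ : Irreducible π) (f : F) (hf : f ≠ 0) :
    ∃ (n : ℤ) (P Q : LaurentSeries A), red A P ≠ 0 ∧ red A Q ≠ 0 ∧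
      φ.toHom f * inc A Q = algebraMap K (LaurentSeries K) ((π : K) ^ n) * inc A P := by
  have hf' : φ.cod f ≠ 0 := (map_ne_zero φ.cod).2 hf
  obtain ⟨a, b, P, Q, -, -, hP, hQ, h⟩ := (isQuot_quotField A).exists_normal hπ (φ.cod f) hf'
  refine ⟨(a : ℤ) - b, P, Q, hP, hQ, ?_⟩
  have hπ0 : (π : K) ≠ 0 := fun h0 => hπ.ne_zero (Subtype.ext h0)
  have hc : algebraMap K (LaurentSeries K) (π : K) ≠ 0 := (map_ne_zero _).2 hπ0
  rw [inc_C, coe_cod] at h
  rw [zpow_sub₀ hπ0, zpow_natCast, zpow_natCast, map_div₀, map_pow, map_pow, div_mul_eq_mul_div,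
    eq_div_iff (pow_ne_zero _ hc), ← h]
  ring

/-- `τ` is a uniformiser of `φ.val` as soon as its expansion is a uniformiser of `A` times an
integral series with nonzero reduction. -/
theorem isUnif_val {π : A} (hπ : Irreducible π) {τ : F} {U : LaurentSeries A} (hU : red A U ≠ 0)
    (h : φ.toHom τ = inc A (HahnSeries.C π * U)) : IsUnif φ.val τ := by
  have hπ0 : (π : K) ≠ 0 := fun h0 => hπ.ne_zero (Subtype.ext h0)
  have hc : algebraMap K (LaurentSeries K) (π : K) ≠ 0 := (map_ne_zero _).2 hπ0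
  have hU0 : inc A U ≠ 0 := inc_ne_zero_of_red_ne_zero hU
  have h' : φ.toHom τ = algebraMap K (LaurentSeries K) (π : K) * inc A U := by
    rw [h, map_mul, inc_C]
  have hτ : τ ≠ 0 := by
    rintro rfl
    rw [map_zero] at h'
    exact mul_ne_zero hc hU0 h'.symm
  refine ⟨φ.mem_val_of_eq_inc h, ?_, ?_⟩
  · intro hinv
    rcases (φ.inv_mem_val_iff ⟨τ, φ.mem_val_of_eq_inc h⟩).1 hinv with h0 | h0
    · exact hτ (congrArg Subtype.val h0)
    · apply h0
      rw [φ.res_of_eq_inc h]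
      exact (red_eq_zero_iff hπ _).2 ⟨U, rfl⟩
  · intro y hy
    obtain ⟨n, P, Q, hP, hQ, hPQ⟩ := φ.exists_normal hπ y hy
    refine ⟨n, ?_⟩
    have key : ∃ P' Q' : LaurentSeries A, red A P' ≠ 0 ∧ red A Q' ≠ 0 ∧
        φ.toHom (y / τ ^ n) * inc A Q' = inc A P' := by
      obtain ⟨m, rfl | rfl⟩ := n.eq_nat_or_neg
      · refine ⟨P, Q * U ^ m, hP, by rw [map_mul, map_pow]; exact mul_ne_zero hQ (pow_ne_zero _ hU),
          ?_⟩
        rw [zpow_natCast, map_pow] at hPQ
        rw [zpow_natCast, map_div₀, map_pow, h', map_mul, map_pow, mul_pow, div_mul_eq_mul_div,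
          div_eq_iff (mul_ne_zero (pow_ne_zero _ hc) (pow_ne_zero _ hU0)), ← mul_assoc, hPQ]
        ring
      · refine ⟨P * U ^ m, Q, by rw [map_mul, map_pow]; exact mul_ne_zero hP (pow_ne_zero _ hU),
          hQ, ?_⟩
        rw [zpow_neg, zpow_natCast, map_inv₀, map_pow] at hPQ
        rw [zpow_neg, zpow_natCast, div_inv_eq_mul, map_mul, map_pow, h', map_mul, map_pow,
          mul_pow, mul_right_comm, hPQ]
        field_simp
    obtain ⟨P', Q', hP', hQ', hh⟩ := key
    exact ⟨(φ.mem_val_iff _).2 ⟨P', Q', hQ', hh⟩, φ.inv_mem_val_of_pres hP' hh⟩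

/-- two elements whose expansions differ by an integral series divisible by a nonunit of `A`
are congruent. -/
theorem sub_mem_nonunits {f g : F} {a : A} (ha : ¬ IsUnit a) {U : LaurentSeries A}
    (h : φ.toHom f - φ.toHom g = inc A (HahnSeries.C a * U)) : f - g ∈ φ.val.nonunits := by
  refine (φ.mem_nonunits_iff _).2 ⟨HahnSeries.C a * U, 1, by rw [map_one]; exact one_ne_zero, ?_,
    by rw [map_sub, h, map_one, mul_one]⟩
  have h1 : IsLocalRing.residue A a = 0 := by
    rw [IsLocalRing.residue_eq_zero_iff, IsLocalRing.mem_maximalIdeal]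
    exact ha
  rw [map_mul, red_C, h1, map_zero, zero_mul]

end IntEmb

end Fermat.Agent.S36.Mod

end
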