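/-
S36, modular part, block S0 (sub-architect helper156).  ABSTRACT FILE (task S36-MOD-G2).
Invariance of the Gauss valuation under `t ↦ t ^ n`, `t ↦ ζ t` and under extension of the
coefficient field.
-/
import Fermat.Agent.S36.Mod.GaussEmb.Basic
import Fermat.Prelude.Thm_ModularCurve_coeffMap_qExpand

set_option autoImplicit false
set_option linter.unusedSectionVars false

noncomputable section

namespace Fermat.Agent.S36.Mod

open ModularCurve Fermat.Agent.S18 Fermat.Agent.S18.Vert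

variable {K : Type*} [Field K] {A : ValuationSubring K} [IsDiscreteValuationRing A]

namespace IntEmb

variable {F : Type*} [Field F] (φ : IntEmb A F)

/-! ### The general transfer principle -/

section Transfer

variable {K' : Type*} [Field K'] {A' : ValuationSubring K'} [IsDiscreteValuationRing A']
  {φ} {ψ : IntEmb A' F}
  (T : LaurentSeries K →+* LaurentSeries K') (TA : LaurentSeries A → LaurentSeries A')
  (Tk : LaurentSeries (IsLocalRing.ResidueField A) →+* LaurentSeries (IsLocalRing.ResidueField A'))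
  (h1 : ∀ f, ψ.toHom f = T (φ.toHom f)) (h2 : ∀ P, T (inc A P) = inc A' (TA P))
  (h3 : ∀ P, red A' (TA P) = Tk (red A P))

include h1 h2 h3 in
theorem transfer_mem {f : F} (hf : f ∈ φ.val) : f ∈ ψ.val := by
  obtain ⟨P, Q, hQ, h⟩ := (φ.mem_val_iff f).mp hf
  refine (ψ.mem_val_iff f).mpr ⟨TA P, TA Q, ?_, ?_⟩
  · rw [h3]
    exact (map_ne_zero Tk).mpr hQ
  · rw [h1, ← h2, ← h2, ← map_mul, h]

include h1 h2 h3 in
theorem transfer_nonunits {f : F} (hf : f ∈ φ.val.nonunits) : f ∈ ψ.val.nonunits := by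
  obtain ⟨P, Q, hQ, hP, h⟩ := (φ.mem_nonunits_iff f).mp hf
  refine (ψ.mem_nonunits_iff f).mpr ⟨TA P, TA Q, ?_, ?_, ?_⟩
  · rw [h3]
    exact (map_ne_zero Tk).mpr hQ
  · rw [h3, hP, map_zero]
  · rw [h1, ← h2, ← h2, ← map_mul, h]

include h1 h2 h3 in
theorem transfer_val : ψ.val = φ.val := by
  refine le_antisymm ?_ (fun f hf => transfer_mem T TA Tk h1 h2 h3 hf)
  intro f hf
  by_contra hcon
  have hinv : f⁻¹ ∈ φ.val.nonunits := by
    rw [ValuationSubring.mem_nonunits_iff_exists_mem_maximalIdeal]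
    have hmem : f⁻¹ ∈ φ.val := (φ.val.mem_or_inv_mem f).resolve_left hcon
    refine ⟨hmem, ?_⟩
    rw [IsLocalRing.mem_maximalIdeal, _root_.mem_nonunits_iff]
    intro hu
    obtain ⟨u, hu⟩ := hu
    apply hcon
    have h4 : ((u⁻¹ : (φ.val)ˣ) : φ.val) * ⟨f⁻¹, hmem⟩ = 1 := by
      rw [← hu]; exact u.inv_mul
    have h5 : (((u⁻¹ : (φ.val)ˣ) : φ.val) : F) * f⁻¹ = 1 := congrArg Subtype.val h4
    have hf0 : f⁻¹ ≠ 0 := right_ne_zero_of_mul_eq_one h5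
    have h6 : f = (((u⁻¹ : (φ.val)ˣ) : φ.val) : F) := by
      have hf1 : f ≠ 0 := fun h0 => hf0 (by rw [h0, inv_zero])
      field_simp at h5
      exact h5.symm
    rw [h6]
    exact Subtype.property _
  have hinv' : f⁻¹ ∈ ψ.val.nonunits := transfer_nonunits T TA Tk h1 h2 h3 hinv
  rw [ValuationSubring.mem_nonunits_iff_exists_mem_maximalIdeal] at hinv'
  obtain ⟨hmem, hmax⟩ := hinv'
  rw [IsLocalRing.mem_maximalIdeal, _root_.mem_nonunits_iff] at hmax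
  apply hmax
  have hf1 : f ≠ 0 := fun h0 => hcon (by rw [h0]; exact zero_mem _)
  exact IsUnit.of_mul_eq_one (⟨f, hf⟩ : ψ.val) (Subtype.ext (inv_mul_cancel₀ hf1))

include h1 h2 h3 in
theorem transfer_res (f : F) (h : f ∈ ψ.val) (h' : f ∈ φ.val) :
    ψ.res ⟨f, h⟩ = Tk (φ.res ⟨f, h'⟩) := by
  obtain ⟨P, Q, hQ, hPQ⟩ := (φ.mem_val_iff f).mp h'
  have e1 : φ.res ⟨f, h'⟩ * red A Q = red A P := φ.res_spec ⟨f, h'⟩ hQ hPQ
  have hQ' : red A' (TA Q) ≠ 0 := by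
    rw [h3]
    exact (map_ne_zero Tk).mpr hQ
  have e2 : ψ.res ⟨f, h⟩ * red A' (TA Q) = red A' (TA P) :=
    ψ.res_spec ⟨f, h⟩ hQ' (by
      change ψ.toHom f * _ = _
      rw [h1, ← h2, ← h2, ← map_mul, hPQ])
  apply mul_right_cancel₀ hQ'
  rw [e2, h3, h3, ← map_mul, e1]

end Transfer

/-! ### `t ↦ t ^ n` -/

theorem val_dil (n : ℕ) [NeZero n] : (φ.dil n).val = φ.val :=
  transfer_val (qExpand K n) (qExpand A n) (qExpand _ n) (fun _ => rfl)
    (fun P => (coeffMap_qExpand A.subtype n P).symm)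
    (fun P => coeffMap_qExpand (IsLocalRing.residue A) n P)

theorem res_dil (n : ℕ) [NeZero n] (f : F) (h : f ∈ (φ.dil n).val) (h' : f ∈ φ.val) :
    (φ.dil n).res ⟨f, h⟩ = qExpand _ n (φ.res ⟨f, h'⟩) :=
  transfer_res (qExpand K n) (qExpand A n) (qExpand _ n) (fun _ => rfl)
    (fun P => (coeffMap_qExpand A.subtype n P).symm)
    (fun P => coeffMap_qExpand (IsLocalRing.residue A) n P) f h h'

/-! ### `t ↦ ζ t` -/

/-- A unit of `K` which is a unit of `A`, as a unit of `A`. -/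
def unitA (ζ : Kˣ) (hζ : (ζ : K) ∈ A) (hζ' : ((ζ⁻¹ : Kˣ) : K) ∈ A) : Aˣ where
  val := ⟨ζ, hζ⟩
  inv := ⟨((ζ⁻¹ : Kˣ) : K), hζ'⟩
  val_inv := Subtype.ext ζ.mul_inv
  inv_val := Subtype.ext ζ.inv_mul

/-- The image of `ζ` in the residue field. -/
def resUnit (ζ : Kˣ) (hζ : (ζ : K) ∈ A) (hζ' : ((ζ⁻¹ : Kˣ) : K) ∈ A) :
    (IsLocalRing.ResidueField A)ˣ :=
  Units.map (IsLocalRing.residue A : A →* IsLocalRing.ResidueField A) (unitA ζ hζ hζ')

theorem map_unitA (ζ : Kˣ) (hζ : (ζ : K) ∈ A) (hζ' : ((ζ⁻¹ : Kˣ) : K) ∈ A) :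
    Units.map (A.subtype : A →* K) (unitA ζ hζ hζ') = ζ := Units.ext rfl

theorem coe_unitA_zpow (ζ : Kˣ) (hζ : (ζ : K) ∈ A) (hζ' : ((ζ⁻¹ : Kˣ) : K) ∈ A) (n : ℤ) :
    ((((unitA ζ hζ hζ') ^ n : Aˣ) : A) : K) = ((ζ ^ n : Kˣ) : K) := by
  conv_rhs => rw [← map_unitA ζ hζ hζ', ← map_zpow]
  rfl

/-- The twist of an integral series. -/
def twA (ζ : Kˣ) (hζ : (ζ : K) ∈ A) (hζ' : ((ζ⁻¹ : Kˣ) : K) ∈ A) (P : LaurentSeries A) :
    LaurentSeries A :=
  liftS A (S24.B.twist ζ (inc A P)) (fun n => by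
    rw [S24.B.twist_coeff, inc_coeff, ← coe_unitA_zpow ζ hζ hζ' n]
    exact A.mul_mem _ _ (Subtype.property _) (Subtype.property _))

theorem twA_coeff (ζ : Kˣ) (hζ : (ζ : K) ∈ A) (hζ' : ((ζ⁻¹ : Kˣ) : K) ∈ A) (P : LaurentSeries A)
    (n : ℤ) : (twA ζ hζ hζ' P).coeff n = (((unitA ζ hζ hζ') ^ n : Aˣ) : A) * P.coeff n := by
  apply Subtype.ext
  change (S24.B.twist ζ (inc A P)).coeff n = _
  rw [S24.B.twist_coeff, inc_coeff, ← coe_unitA_zpow ζ hζ hζ' n]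
  rfl

theorem red_twA (ζ : Kˣ) (hζ : (ζ : K) ∈ A) (hζ' : ((ζ⁻¹ : Kˣ) : K) ∈ A) (P : LaurentSeries A) :
    red A (twA ζ hζ hζ' P) =
      S24.B.twist (resUnit ζ hζ hζ') (red A P) := by
  ext n
  rw [red_coeff, twA_coeff, map_mul, S24.B.twist_coeff, red_coeff, resUnit, ← map_zpow]
  rfl

theorem val_tw (ζ : Kˣ) (hζ : (ζ : K) ∈ A) (hζ' : ((ζ⁻¹ : Kˣ) : K) ∈ A) :
    (φ.tw ζ hζ hζ').val = φ.val :=
  transfer_val (S24.B.twist ζ) (twA ζ hζ hζ')
    (S24.B.twist (resUnit ζ hζ hζ')) (fun _ => rfl)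
    (fun _ => (inc_liftS A _ _).symm) (red_twA ζ hζ hζ')

/-- The residue map of a twist. -/
theorem res_tw (ζ : Kˣ) (hζ : (ζ : K) ∈ A) (hζ' : ((ζ⁻¹ : Kˣ) : K) ∈ A)
    (f : F) (h : f ∈ (φ.tw ζ hζ hζ').val) (h' : f ∈ φ.val) :
    (φ.tw ζ hζ hζ').res ⟨f, h⟩ =
      S24.B.twist (resUnit ζ hζ hζ')
        (φ.res ⟨f, h'⟩) :=
  transfer_res (S24.B.twist ζ) (twA ζ hζ hζ')
    (S24.B.twist (resUnit ζ hζ hζ')) (fun _ => rfl)
    (fun _ => (inc_liftS A _ _).symm) (red_twA ζ hζ hζ') f h h'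

/-- If `ζ ≡ 1` modulo the maximal ideal then the twist does not change the residue map. -/
theorem res_tw_of_sub_one (ζ : Kˣ) (hζ : (ζ : K) ∈ A) (hζ' : ((ζ⁻¹ : Kˣ) : K) ∈ A)
    (h1 : (ζ : K) - 1 ∈ A.nonunits) (f : F) (h : f ∈ (φ.tw ζ hζ hζ').val) (h' : f ∈ φ.val) :
    (φ.tw ζ hζ hζ').res ⟨f, h⟩ = φ.res ⟨f, h'⟩ := by
  rw [res_tw φ ζ hζ hζ' f h h']
  have hone : resUnit ζ hζ hζ' = 1 := by
    apply Units.ext
    change IsLocalRing.residue A (⟨ζ, hζ⟩ : A) = 1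
    rw [ValuationSubring.mem_nonunits_iff_exists_mem_maximalIdeal] at h1
    obtain ⟨hm, hmax⟩ := h1
    have h0 : IsLocalRing.residue A ((⟨ζ, hζ⟩ : A) - 1) = 0 := by
      rw [IsLocalRing.residue_eq_zero_iff]
      exact hmax
    rw [map_sub, map_one, sub_eq_zero] at h0
    exact h0
  rw [hone, S24.B.twist_one]

/-! ### Extension of the coefficients -/

variable {K' : Type*} [Field K'] {A' : ValuationSubring K'} [IsDiscreteValuationRing A']
  (ι : K →+* K') (hι : A'.comap ι = A)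

theorem bc_inc (P : LaurentSeries A) :
    coeffMap ι (inc A P) = inc A' (coeffMap
      (ι.restrict A A' (fun x hx => by rw [← hι] at hx; exact hx)) P) := by
  ext n
  rfl

theorem bc_red (P : LaurentSeries A) :
    red A' (coeffMap (ι.restrict A A' (fun x hx => by rw [← hι] at hx; exact hx)) P) =
      coeffMap (resFieldMap ι hι) (red A P) := by
  ext n
  rfl

theorem val_bc : (φ.bc ι hι).val = φ.val :=
  transfer_val (coeffMap ι) (coeffMap (ι.restrict A A' (fun x hx => by rw [← hι] at hx; exact hx)))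
    (coeffMap (resFieldMap ι hι)) (fun _ => rfl) (bc_inc ι hι) (bc_red ι hι)

theorem res_bc (f : F) (h : f ∈ (φ.bc ι hι).val) (h' : f ∈ φ.val) :
    (φ.bc ι hι).res ⟨f, h⟩ = coeffMap (resFieldMap ι hι) (φ.res ⟨f, h'⟩) :=
  transfer_res (coeffMap ι)
    (coeffMap (ι.restrict A A' (fun x hx => by rw [← hι] at hx; exact hx)))
    (coeffMap (resFieldMap ι hι)) (fun _ => rfl) (bc_inc ι hι) (bc_red ι hι) f h h'

/-- Two integral embeddings with the same underlying homomorphism have the same valuation ring. -/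
theorem val_congr {φ ψ : IntEmb A F} (h : φ.toHom = ψ.toHom) : φ.val = ψ.val := by
  obtain ⟨a, b⟩ := φ
  obtain ⟨c, d⟩ := ψ
  obtain rfl : a = c := h
  rfl

theorem res_congr {φ ψ : IntEmb A F} (h : φ.toHom = ψ.toHom) (f : F) (hf : f ∈ φ.val)
    (hf' : f ∈ ψ.val) : φ.res ⟨f, hf⟩ = ψ.res ⟨f, hf'⟩ := by
  obtain ⟨a, b⟩ := φ
  obtain ⟨c, d⟩ := ψ
  obtain rfl : a = c := h
  rfl

end IntEmb

end Fermat.Agent.S36.Mod

end
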